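import Fermat.Agent.H84.ORD.NodalModelAPI
import Fermat.Agent.H18.ORD.NodalDivDefs
import Fermat.Agent.H37.FF.UnrGNF
import Fermat.Agent.H53.ORD.UnrDiscThm

/-!
# P-ORD, block B1-LIFT, concrete input [DIV] at `∞` (helper61)

`UnrDivOo p (nmG htot)` : an inertia-fixed element `u` of the Gauss ring `V_∞ = gaussOBar N A`
with `red_∞ u = 0` is divisible by `p` in `V_∞`.

Valid at EVERY level `N` and every place `A` over a prime `ℓ` (no hypothesis on `N`):

* `gauss_unrDiv_series` : the statement inside `ℚ̄((q))`;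
* `gauss_unrDiv`        : the statement for `gaussOBar N A` / `gaussRedBar N A`;
* `nm_unrDivOo`         : `UnrDivOo p (nmG htot)`.

Proof = the unramified Gauss normal form (port of helper37's `ratGNF_unr`, without `RvHyp`):
fixed-field descent (helper27) writes `u` over the inertia field `K₀`; helper66's `exists_gnf`
over `(K₀, A ∩ K₀)` gives `u = c • (ι a / ι b)` with `c ∈ K₀`, `a, b` primitive; by [DISC]
(helper53) `c = ε ℓ ^ m` with `ε ∈ Aˣ`; `red u = 0` forces `m ≥ 1`.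
-/

set_option autoImplicit false
set_option linter.unusedSectionVars false
set_option linter.style.haveILetI false
set_option synthInstance.maxHeartbeats 400000
set_option maxHeartbeats 1600000

noncomputable section

open ModularCurve AlgebraicCurve

namespace Fermat.Agent.H61.ORD

open Fermat.Agent.H72.FF Fermat.Agent.H66 Fermat.Agent.H37.FF Fermat.Agent.H18.ORD

/-- a non-unit `c` of `A` which is a unit times a power of `ℓ` is divisible by `ℓ` in `A` -/
theorem ud_div_mem {ℓ : ℕ} {A : ValuationSubring Qb} {c : Qb}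
    (hc : c ∈ A.nonunits) (n : ℤ) (h1 : c * (ℓ : Qb) ^ n ∈ A) (h2 : (c * (ℓ : Qb) ^ n)⁻¹ ∈ A) :
    (ℓ : Qb)⁻¹ * c ∈ A := by
  have hℓA : (ℓ : Qb) ∈ A := by
    have : ((ℓ : ℕ) : Qb) = (((ℓ : ℕ) : A) : Qb) := by push_cast; rfl
    rw [this]; exact ((ℓ : ℕ) : A).2
  by_cases hc0 : c = 0
  · rw [hc0, mul_zero]; exact A.zero_mem
  by_cases hℓ0 : (ℓ : Qb) = 0
  · rw [hℓ0, inv_zero, zero_mul]; exact A.zero_mem
  obtain ⟨hcA, hcm⟩ := (A.mem_nonunits_iff_exists_mem_maximalIdeal).1 hc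
  rcases le_or_gt 0 n with hn | hn
  · -- `n ≥ 0` : then `c⁻¹ ∈ A`, contradiction
    exfalso
    obtain ⟨m, rfl⟩ := Int.eq_ofNat_of_zero_le hn
    have h3 : c⁻¹ ∈ A := by
      have : c⁻¹ = (c * (ℓ : Qb) ^ (m : ℤ))⁻¹ * (ℓ : Qb) ^ m := by
        rw [zpow_natCast]
        field_simp
      rw [this]
      exact mul_mem h2 (pow_mem hℓA m)
    have hu : IsUnit (⟨c, hcA⟩ : A) := by
      refine isUnit_iff_exists_inv.2 ⟨⟨c⁻¹, h3⟩, ?_⟩
      apply Subtype.ext
      show c * c⁻¹ = 1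
      exact mul_inv_cancel₀ hc0
    exact (IsLocalRing.mem_maximalIdeal _).1 hcm hu
  · -- `n < 0`
    obtain ⟨m, hm⟩ : ∃ m : ℕ, n = -((m : ℤ) + 1) := by
      refine ⟨(-n - 1).toNat, ?_⟩
      have : ((-n - 1).toNat : ℤ) = -n - 1 := Int.toNat_of_nonneg (by omega)
      omega
    have : (ℓ : Qb)⁻¹ * c = (c * (ℓ : Qb) ^ n) * (ℓ : Qb) ^ m := by
      rw [hm, zpow_neg, zpow_add_one₀ hℓ0, zpow_natCast]
      field_simp
    rw [this]
    exact mul_mem h1 (pow_mem hℓA m)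

/-- **[DIV] inside `ℚ̄((q))`.** -/
theorem gauss_unrDiv_series (N ℓ : ℕ) (hℓ : ℓ.Prime) (A : ValuationSubring Qb)
    (hA : A.LiesOverPrime ℓ) (x : LaurentSeries Qb)
    (hxF : x ∈ laurentBaseChange Qb (modularFunctionFieldFull N))
    (hfix : ∀ σ ∈ A.inertiaSubgroupIn ℚ, coeffMap ((σ : Qb ≃ₐ[ℚ] Qb) : Qb →+* Qb) x = x)
    (hx : x ∈ vGaussRing A) (hred : vGaussRed A ⟨x, hx⟩ = 0) :
    algebraMap Qb (LaurentSeries Qb) (ℓ : Qb)⁻¹ * x ∈ vGaussRing A := by
  by_cases hx0 : x = 0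
  · rw [hx0, mul_zero]; exact zero_mem _
  set K₀ := IntermediateField.fixedField (A.inertiaSubgroupIn ℚ) with hK₀
  set R' : ValuationSubring ↥K₀ := A.comap (algebraMap ↥K₀ Qb) with hR'
  obtain ⟨f₁, hf₁, hf₁f⟩ := Fermat.Agent.H27.FF.fixedDescent (modularFunctionFieldFull N)
    (A.inertiaSubgroupIn ℚ) x hxF hfix
  have hf₁0 : f₁ ≠ 0 := by
    rintro rfl
    rw [map_zero] at hf₁f
    exact hx0 hf₁f.symm
  obtain ⟨c₁, a₁, b₁, hc₁, -, -, hra, hrb, h⟩ := Fermat.Agent.H66.exists_gnf N R' hf₁ hf₁0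
  -- transport to `A`
  have hcomp : (A.subtype : ↥A →+* Qb).comp (unrIncl A) =
      (algebraMap ↥K₀ Qb).comp R'.subtype := RingHom.ext fun _ => rfl
  have hι : ∀ y : LaurentSeries ↥R', vIota A (coeffMap (unrIncl A) y) =
      coeffMap (algebraMap ↥K₀ Qb) (vIota R' y) := by
    intro y
    show coeffMap A.subtype (coeffMap (unrIncl A) y) =
      coeffMap (algebraMap ↥K₀ Qb) (coeffMap R'.subtype y)
    rw [coeffMap_coeffMap, coeffMap_coeffMap, hcomp]
  have hred' : ∀ y : LaurentSeries ↥R', vRho R' y ≠ 0 → vRho A (coeffMap (unrIncl A) y) ≠ 0 := by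
    intro y hy
    rw [vRho_ne_zero_iff] at hy ⊢
    obtain ⟨m, hm⟩ := hy
    refine ⟨m, ?_⟩
    rw [coeffMap_coeff]
    exact hm.map (unrIncl A)
  set a : LaurentSeries ↥A := coeffMap (unrIncl A) a₁ with ha
  set b : LaurentSeries ↥A := coeffMap (unrIncl A) b₁ with hb
  set c : Qb := algebraMap ↥K₀ Qb c₁ with hc
  have hra' : vRho A a ≠ 0 := hred' a₁ hra
  have hrb' : vRho A b ≠ 0 := hred' b₁ hrb
  have hb0 : vIota A b ≠ 0 := vIota_ne_zero_of_vRho_ne_zero A hrb'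
  have hc0 : c ≠ 0 := fun h0 => hc₁ ((map_eq_zero _).1 h0)
  have heq : x * vIota A b = algebraMap Qb (LaurentSeries Qb) c * vIota A a := by
    rw [hι, hι, ← hf₁f, ← map_mul, h, map_mul, Fermat.Agent.H27.FF.coeffMap_algebraMap_hom]
  -- the unit `w = ι a / ι b`
  have hwmem : vIota A a * (vIota A b)⁻¹ ∈ vGaussRing A := by
    rw [mem_vGaussRing_iff]
    exact ⟨a, b, hrb', by rw [mul_assoc, inv_mul_cancel₀ hb0, mul_one]⟩
  set w : vGaussRing A := ⟨vIota A a * (vIota A b)⁻¹, hwmem⟩ with hw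
  have hwb : (w : LaurentSeries Qb) * vIota A b = vIota A a := by
    show vIota A a * (vIota A b)⁻¹ * vIota A b = _
    rw [mul_assoc, inv_mul_cancel₀ hb0, mul_one]
  have hwred : vGaussRed A w ≠ 0 := by
    rw [vGaussRed_eq A w a b hrb' hwb]
    exact div_ne_zero hra' hrb'
  have hxw : x = algebraMap Qb (LaurentSeries Qb) c * (w : LaurentSeries Qb) := by
    show x = algebraMap Qb (LaurentSeries Qb) c * (vIota A a * (vIota A b)⁻¹)
    rw [← mul_assoc, ← heq, mul_assoc, mul_inv_cancel₀ hb0, mul_one]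
  have hcA : c ∈ A := mem_of_algebraMap_mul_mem A hwred (by rw [← hxw]; exact hx)
  -- `red x = res c * red w = 0`, so `c` is not a unit
  have hcm : c ∈ A.nonunits := by
    rw [A.mem_nonunits_iff_exists_mem_maximalIdeal]
    refine ⟨hcA, ?_⟩
    rw [← IsLocalRing.residue_eq_zero_iff]
    have e : (⟨x, hx⟩ : vGaussRing A) =
        ⟨algebraMap Qb (LaurentSeries Qb) c, algebraMap_mem_vGaussRing A hcA⟩ * w :=
      Subtype.ext hxw
    rw [e, map_mul, vGaussRed_algebraMap A hcA] at hred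
    rcases mul_eq_zero.1 hred with h0 | h0
    · exact (algebraMap (IsLocalRing.ResidueField ↥A)
        (LaurentSeries (IsLocalRing.ResidueField ↥A))).injective (by rw [h0, map_zero])
    · exact absurd h0 hwred
  -- `c` is fixed by inertia, hence a unit times a power of `ℓ`
  have hcfix : ∀ σ ∈ A.inertiaSubgroupIn ℚ, σ c = c := fun σ hσ =>
    (IntermediateField.mem_fixedField_iff _ _).1 c₁.2 σ hσ
  obtain ⟨n, hn1, hn2⟩ := Fermat.Agent.H53.unrDisc_of_liesOver ℓ A hℓ hA c hc0 hcfix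
  have hdiv : (ℓ : Qb)⁻¹ * c ∈ A := ud_div_mem hcm n hn1 hn2
  have : algebraMap Qb (LaurentSeries Qb) (ℓ : Qb)⁻¹ * x =
      algebraMap Qb (LaurentSeries Qb) ((ℓ : Qb)⁻¹ * c) * (w : LaurentSeries Qb) := by
    rw [hxw, map_mul, mul_assoc]
  rw [this]
  exact mul_mem (algebraMap_mem_vGaussRing A hdiv) w.2

/-- **[DIV] for the Gauss ring `gaussOBar N A`**, at every level `N`. -/
theorem gauss_unrDiv (N ℓ : ℕ) (hℓ : ℓ.Prime) (A : ValuationSubring Qb)
    (hA : A.LiesOverPrime ℓ) (u : FLb N) (hu : u ∈ gaussOBar N A) (hfix : IsUnrFn A N u)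
    (hred : gaussRedBar N A ⟨u, hu⟩ = 0) :
    algebraMap Qb (FLb N) (ℓ : Qb)⁻¹ * u ∈ gaussOBar N A := by
  rw [mem_gaussOBar_iff]
  have h1 := gauss_unrDiv_series N ℓ hℓ A hA (u : LaurentSeries Qb) u.2
    (fun σ hσ => congrArg Subtype.val (hfix σ hσ)) hu hred
  exact h1

/-- **[DIV] at `∞` for the nodal model `nmG`.** -/
theorem nm_unrDivOo (M p : ℕ) [NeZero M] [NeZero p] (A : ValuationSubring Qb)
    (h : Fermat.Agent.H84.ORD.NmSetup M p A)
    (htot : Fermat.Agent.H84.ORD.NmTot M p h.cop A) :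
    UnrDivOo p (Fermat.Agent.H84.ORD.nmG htot) := by
  intro u hu hfix hred
  show algebraMap Qb (FLb (M * p)) (p : Qb)⁻¹ * u ∈ gaussOBar (M * p) A
  have hu' : u ∈ gaussOBar (M * p) A := hu
  refine gauss_unrDiv (M * p) p h.prime A h.liesOver u hu' hfix ?_
  exact (Fermat.Agent.H84.ORD.nmRedOo_eq_zero_iff (M * p) A ⟨u, hu'⟩).1 hred

end Fermat.Agent.H61.ORD

end
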