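import Fermat.Agent.H61.ORD.NmUnrDivOo
import Fermat.Agent.H13.ORD.NmUnrNorm

/-!
# P-ORD, block B1-LIFT, concrete input [DIV] at `0` and the closed [DIV] (helper61)

* `nm_unrDivZero` : `UnrDivZero p (nmG htot)`, by transport of `gauss_unrDiv` along the
  Atkin-Lehner automorphism `nmW` (which commutes with the Galois action, helper13);
* `nm_unrDiv`     : `UnrDiv p (nmG htot)`, UNCONDITIONAL (only the standing `NmSetup`).
-/

set_option autoImplicit false
set_option linter.unusedSectionVars false
set_option linter.style.haveILetI false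
set_option synthInstance.maxHeartbeats 400000
set_option maxHeartbeats 1600000

noncomputable section

open ModularCurve AlgebraicCurve

namespace Fermat.Agent.H61.ORD

open Fermat.Agent.H72.FF Fermat.Agent.H66 Fermat.Agent.H37.FF Fermat.Agent.H18.ORD
open Fermat.Agent.H84.ORD

/-- **[DIV] at `0` for the nodal model `nmG`.** -/
theorem nm_unrDivZero (M p : ℕ) [NeZero M] [NeZero p] (A : ValuationSubring Qb)
    (h : NmSetup M p A) (htot : NmTot M p h.cop A) :
    UnrDivZero p (nmG htot) := by
  intro u hu hfix hred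
  show algebraMap Qb (FLb (M * p)) (p : Qb)⁻¹ * u ∈ nmV0 M p h.cop A
  have hu' : nmW M p h.cop u ∈ gaussOBar (M * p) A := hu
  have hfixW : IsUnrFn A (M * p) (nmW M p h.cop u) :=
    Fermat.Agent.H13.ORD.nmUnr_isUnrFn_W M p h.cop A u hfix
  have hredW : gaussRedBar (M * p) A ⟨nmW M p h.cop u, hu'⟩ = 0 :=
    (nmRedOo_eq_zero_iff (M * p) A ⟨nmW M p h.cop u, hu'⟩).1 hred
  have key := gauss_unrDiv (M * p) p h.prime A h.liesOver (nmW M p h.cop u) hu' hfixW hredW
  rw [mem_nmV0_iff, map_mul, (nmW M p h.cop).commutes]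
  exact key

/-- **[DIV] for the nodal model `nmG`**, unconditional. -/
theorem nm_unrDiv (M p : ℕ) [NeZero M] [NeZero p] (A : ValuationSubring Qb)
    (h : NmSetup M p A) (htot : NmTot M p h.cop A) :
    UnrDiv p (nmG htot) :=
  unrDiv_of_components (nm_unrDivOo M p A h htot) (nm_unrDivZero M p A h htot)

end Fermat.Agent.H61.ORD

end
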